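/-
Row 37 (S38 / S43, Ribet's level lowering): TOP-LEVEL INTERFACE and GLUE.
Captain: helper43.  Plan: NOTES/S43-plan.md (v2) and NOTES/RT-plan.md.

The frozen statement S43 is reduced to three statements:

* `StmtMP` : MAZUR'S PRINCIPLE (geometry of `J0(N)` at `q ∥ N`, `q ≠ p`): an odd prime `q ≠ p`
             of the level can be removed unless it is a TRIVIAL prime
             (`q ≡ 1 mod p` and every Frobenius at `q` acts on `E[p]` as a scalar `±1`).
* `StmtTR` : the K-MACHINE (`Fermat/Agent/RT`): if `p ∤ N` and EVERY odd prime of the level is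
             trivial, then any odd prime can be removed.
* `StmtP`  : removal of `p` from the level (this is the shape of the frozen S44, row 38).

`s43_of_parts` is the glue (strong induction on the level).
-/
import Mathlib
import Fermat.Prelude.Def_FLTPrelim_FreyPackage
import Fermat.Prelude.Def_FLTPrelim_GaloisRep
import Fermat.Prelude.Def_FLTPrelim_Modularity
import Fermat.Prelude.Def_FLTPrelim_ModularRep
import Fermat.Prelude.Def_FLTPrelim_Ramification
import Fermat.Prelude.Def_FreyPackage_IsConductorLevel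
import Fermat.Prelude.Def_EllipticCurve_FrobeniusTrace

set_option autoImplicit false

open WeierstrassCurve WeierstrassCurve.Affine WeierstrassCurve.Affine.Point

namespace Fermat.Agent.RIB

/-- A **trivial prime** of the Frey package: `r ≠ p` prime, `r ≡ 1 mod p`, and there is a sign
`ε = ±1` such that every Frobenius element at every place over `r` acts on `E[p](ℚ̄)` as `ε`. -/
def IsTrivialPrime (P : FreyPackage) (r : ℕ) : Prop :=
  r.Prime ∧ r ≠ P.p ∧ P.p ∣ r - 1 ∧
    ∃ ε : ℤ, (ε = 1 ∨ ε = -1) ∧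
      ∀ A : ValuationSubring (AlgebraicClosure ℚ), A.LiesOverPrime r →
        ∀ τ : AlgebraicClosure ℚ ≃ₐ[ℚ] AlgebraicClosure ℚ, A.IsFrobeniusAt τ r →
          ∀ x : Submodule.torsionBy ℤ ((P.freyCurve.toAffine)⁄(AlgebraicClosure ℚ)).Point P.p,
            τ • x = ε • x

/-- The conclusion of S43. -/
def Lowered (P : FreyPackage) (N q : ℕ) : Prop :=
  ∃ M : ℕ, M ∣ N ∧ ¬ q ∣ M ∧ P.ModularRepOfLevel M

/-- **MP (Mazur's principle, Frey form)**, levels prime to `p`. -/
def StmtMP : Prop :=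
  ∀ (P : FreyPackage) (N q : ℕ), P.IsConductorLevel N → ¬ P.p ∣ N → q.Prime → q ≠ 2 → q ≠ P.p →
    q ∣ N → GaloisRepIsIrreducible (K := AlgebraicClosure ℚ) ℚ P.freyCurve P.p →
    P.ModularRepOfLevel N → P.GaloisRepUnramifiedAt q →
    Lowered P N q ∨ IsTrivialPrime P q

/-- **TR (trivial primes; the K-machine)**, levels prime to `p` all of whose odd primes are
trivial. -/
def StmtTR : Prop :=
  ∀ (P : FreyPackage) (N q : ℕ), P.IsConductorLevel N → ¬ P.p ∣ N → q.Prime → q ≠ 2 →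
    q ∣ N → GaloisRepIsIrreducible (K := AlgebraicClosure ℚ) ℚ P.freyCurve P.p →
    P.ModularRepOfLevel N →
    (∀ r : ℕ, r.Prime → r ≠ 2 → r ∣ N → IsTrivialPrime P r) →
    Lowered P N q

/-- **P (removal of `p`)**: the shape of the frozen S44 (row 38). -/
def StmtP : Prop :=
  ∀ (P : FreyPackage) (N : ℕ), P.IsConductorLevel N → P.p ∣ N →
    GaloisRepIsIrreducible (K := AlgebraicClosure ℚ) ℚ P.freyCurve P.p →
    P.ModularRepOfLevel N → ∃ M : ℕ, M ∣ N ∧ ¬ P.p ∣ M ∧ P.ModularRepOfLevel M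

/-- Levels prime to `p`: strong induction on the level. -/
theorem rib_lowered_of_not_dvd (hMP : StmtMP) (hTR : StmtTR) (P : FreyPackage)
    (hirr : GaloisRepIsIrreducible (K := AlgebraicClosure ℚ) ℚ P.freyCurve P.p)
    (hunr : ∀ q : ℕ, q.Prime → q ≠ 2 → q ≠ P.p → P.GaloisRepUnramifiedAt q) :
    ∀ N : ℕ, P.IsConductorLevel N → ¬ P.p ∣ N → P.ModularRepOfLevel N →
      ∀ q : ℕ, q.Prime → q ≠ 2 → q ∣ N → Lowered P N q := by
  intro N
  induction N using Nat.strong_induction_on with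
  | _ N ih =>
    intro hcond hpN hmod q hq hq2 hqN
    have hqp : q ≠ P.p := fun h => hpN (h ▸ hqN)
    rcases hMP P N q hcond hpN hq hq2 hqp hqN hirr hmod (hunr q hq hq2 hqp) with h | htriv
    · exact h
    · by_cases hall : ∀ r : ℕ, r.Prime → r ≠ 2 → r ∣ N → IsTrivialPrime P r
      · exact hTR P N q hcond hpN hq hq2 hqN hirr hmod hall
      · push Not at hall
        obtain ⟨r, hr, hr2, hrN, hrt⟩ := hall
        have hrp : r ≠ P.p := fun h => hpN (h ▸ hrN)
        rcases hMP P N r hcond hpN hr hr2 hrp hrN hirr hmod (hunr r hr hr2 hrp) with h | h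
        · obtain ⟨N₁, hN₁N, hrN₁, hmod₁⟩ := h
          have hN₁pos : 0 < N₁ := Nat.pos_of_dvd_of_pos hN₁N hcond.pos
          have hlt : N₁ < N := by
            refine lt_of_le_of_ne (Nat.le_of_dvd hcond.pos hN₁N) ?_
            rintro rfl
            exact hrN₁ hrN
          by_cases hqN₁ : q ∣ N₁
          · obtain ⟨M, hM, hqM, hmodM⟩ := ih N₁ hlt (hcond.of_dvd hN₁N hN₁pos)
              (fun h => hpN (h.trans hN₁N)) hmod₁ q hq hq2 hqN₁
            exact ⟨M, hM.trans hN₁N, hqM, hmodM⟩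
          · exact ⟨N₁, hN₁N, hqN₁, hmod₁⟩
        · exact absurd h hrt

/-- **GLUE.**  The frozen statement S43 from `StmtMP`, `StmtTR`, `StmtP` and the unramifiedness
of the Frey representation at the odd primes `≠ p` (= S05, on main). -/
theorem s43_of_parts (hMP : StmtMP) (hTR : StmtTR) (hP : StmtP)
    (hS05 : ∀ (P : FreyPackage) (q : ℕ), q.Prime → q ≠ 2 → q ≠ P.p → P.GaloisRepUnramifiedAt q)
    (P : FreyPackage) {N q : ℕ} (hcond : P.IsConductorLevel N) (hq : q.Prime) (hq2 : q ≠ 2)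
    (_hqp : q ≠ P.p) (hqN : q ∣ N)
    (hirr : GaloisRepIsIrreducible (K := AlgebraicClosure ℚ) ℚ P.freyCurve P.p)
    (hmod : P.ModularRepOfLevel N) (_hunr : P.GaloisRepUnramifiedAt q) :
    ∃ M : ℕ, M ∣ N ∧ ¬ q ∣ M ∧ P.ModularRepOfLevel M := by
  by_cases hpN : P.p ∣ N
  · obtain ⟨N₁, hN₁N, hpN₁, hmod₁⟩ := hP P N hcond hpN hirr hmod
    have hN₁pos : 0 < N₁ := Nat.pos_of_dvd_of_pos hN₁N hcond.pos
    by_cases hqN₁ : q ∣ N₁
    · obtain ⟨M, hM, hqM, hmodM⟩ := rib_lowered_of_not_dvd hMP hTR P hirr (hS05 P) N₁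
        (hcond.of_dvd hN₁N hN₁pos) hpN₁ hmod₁ q hq hq2 hqN₁
      exact ⟨M, hM.trans hN₁N, hqM, hmodM⟩
    · exact ⟨N₁, hN₁N, hqN₁, hmod₁⟩
  · exact rib_lowered_of_not_dvd hMP hTR P hirr (hS05 P) N hcond hpN hmod q hq hq2 hqN

end Fermat.Agent.RIB
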