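/-
Row 37 (S38 / S43): TOP-LEVEL GLUE, EVEN-LEVEL FORM (helper43, captain).

The reduction packages of `X₀(M₁)` at `q = 3` exist only for EVEN `M₁` (helper85's GAP note), and the
frozen S43 allows ODD conductor levels.  This file shows that nothing is lost by working at EVEN
levels only:

* `rib_raise`      : `ModularRepOfLevel M → M ∣ C → ModularRepOfLevel C` (stabilisation of
                     eigenforms, `S58.stab_exists_prime`);
* `StmtMPe`, `StmtTRe`, `StmtPe` : the statements `StmtMP`, `StmtTR`, `StmtP` of `RIB/Plan.lean`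
                     with the extra hypothesis `2 ∣ N`; `StmtTRe` and `StmtMPe` only have to remove
                     the prime from the level in the weak sense `Lowered`;
* `rib_even_false` : `StmtMPe → StmtTRe →` no Frey representation is modular of an even conductor
                     level prime to `p` (strong induction on the level; the induction stays at even
                     levels because an odd level `M ∣ N` is raised to `2 M ∣ N`; it ends at level
                     `2`, where there is no cusp form: S07);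
* `rib_modular_false` : the same for ALL conductor levels (with `StmtPe`);
* `s43_of_even_parts` : the frozen statement S43.
-/
import Fermat.Agent.RIB.Plan
import Fermat.Agent.S58.Stab
import Fermat.Agent.S07

set_option autoImplicit false

open WeierstrassCurve WeierstrassCurve.Affine WeierstrassCurve.Affine.Point
open CuspForm ModularFormClass UpperHalfPlane

namespace Fermat.Agent.RIB

/-- **MP at even levels.** -/
def StmtMPe : Prop :=
  ∀ (P : FreyPackage) (N q : ℕ), P.IsConductorLevel N → 2 ∣ N → ¬ P.p ∣ N → q.Prime → q ≠ 2 →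
    q ≠ P.p → q ∣ N → GaloisRepIsIrreducible (K := AlgebraicClosure ℚ) ℚ P.freyCurve P.p →
    P.ModularRepOfLevel N → P.GaloisRepUnramifiedAt q →
    Lowered P N q ∨ IsTrivialPrime P q

/-- **TR at even levels.** -/
def StmtTRe : Prop :=
  ∀ (P : FreyPackage) (N q : ℕ), P.IsConductorLevel N → 2 ∣ N → ¬ P.p ∣ N → q.Prime → q ≠ 2 →
    q ∣ N → GaloisRepIsIrreducible (K := AlgebraicClosure ℚ) ℚ P.freyCurve P.p →
    P.ModularRepOfLevel N →
    (∀ r : ℕ, r.Prime → r ≠ 2 → r ∣ N → IsTrivialPrime P r) →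
    Lowered P N q

/-- **P at even levels.** -/
def StmtPe : Prop :=
  ∀ (P : FreyPackage) (N : ℕ), P.IsConductorLevel N → 2 ∣ N → P.p ∣ N →
    GaloisRepIsIrreducible (K := AlgebraicClosure ℚ) ℚ P.freyCurve P.p →
    P.ModularRepOfLevel N → ∃ M : ℕ, M ∣ N ∧ ¬ P.p ∣ M ∧ P.ModularRepOfLevel M

theorem stmtMPe_of (h : StmtMP) : StmtMPe :=
  fun P N q hcond _ hpN hq hq2 hqp hqN hirr hmod hunr =>
    h P N q hcond hpN hq hq2 hqp hqN hirr hmod hunr

theorem stmtTRe_of (h : StmtTR) : StmtTRe :=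
  fun P N q hcond _ hpN hq hq2 hqN hirr hmod hall => h P N q hcond hpN hq hq2 hqN hirr hmod hall

theorem stmtPe_of (h : StmtP) : StmtPe :=
  fun P N hcond _ hpN hirr hmod => h P N hcond hpN hirr hmod

/-- **Raising the level**: the Frey representation is modular of every nonzero multiple of a
level of which it is modular. -/
theorem rib_raise (P : FreyPackage) {M C : ℕ} (hC : C ≠ 0) (hMC : M ∣ C)
    (h : P.ModularRepOfLevel M) : P.ModularRepOfLevel C := by
  obtain ⟨f, W, 𝔪, hf, hW, hm, hpm, hcong⟩ := h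
  obtain ⟨g, hg, hq⟩ := Fermat.Agent.S58.stab_exists_prime hC hMC f hf
  refine ⟨g, W, 𝔪, hg, hW, hm, hpm, fun ℓ hℓ hgood hℓC hℓp => ?_⟩
  obtain ⟨a, ha, ham⟩ := hcong ℓ hℓ hgood (fun hd => hℓC (hd.trans hMC)) hℓp
  exact ⟨a, by rw [ha, hq ℓ hℓ hℓC], ham⟩

/-- `2` divides `a b c`. -/
theorem rib_two_dvd_abc (P : FreyPackage) : (2 : ℤ) ∣ P.a * P.b * P.c := by
  have h : (2 : ℤ) ∣ P.b := by
    have := P.hb2
    exact (ZMod.intCast_zmod_eq_zero_iff_dvd P.b 2).mp this
  exact Dvd.dvd.mul_right (Dvd.dvd.mul_left h P.a) P.c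

/-- the even hull of a conductor level -/
theorem rib_cond_two_mul (P : FreyPackage) {N : ℕ} (hcond : P.IsConductorLevel N)
    (h2 : ¬ 2 ∣ N) : P.IsConductorLevel (2 * N) := by
  refine ⟨Nat.mul_pos two_pos hcond.pos, ?_, ?_⟩
  · rw [Nat.squarefree_mul_iff]
    exact ⟨(Nat.Prime.coprime_iff_not_dvd Nat.prime_two).mpr h2, Nat.prime_two.squarefree,
      hcond.squarefree⟩
  · intro q hq hqN
    rcases (Nat.Prime.dvd_mul hq).1 hqN with h | h
    · have : q = 2 := (Nat.prime_dvd_prime_iff_eq hq Nat.prime_two).1 h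
      subst this
      exact_mod_cast rib_two_dvd_abc P
    · exact hcond.support q hq h

/-- there is no normalised eigenform of level `2` -/
theorem rib_not_modular_two (P : FreyPackage) : ¬ P.ModularRepOfLevel 2 := by
  rintro ⟨f, W, 𝔪, hf, -⟩
  have h1 := hf.qCoeff_one
  rw [Fermat.Agent.S07.result f] at h1
  have h0 : qCoeff ⇑(0 : CuspForm (CongruenceSubgroup.Gamma0 2) 2) 1 = 0 := by
    have := Fermat.Agent.S49.qCoeff_smul (0 : ℂ) (0 : CuspForm (CongruenceSubgroup.Gamma0 2) 2) 1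
    simpa using this
  rw [h0] at h1
  exact zero_ne_one h1

/-- an even squarefree number `≠ 2` has an odd prime factor -/
theorem rib_exists_odd_prime {N : ℕ} (hN : Squarefree N) (h2 : 2 ∣ N) (hN2 : N ≠ 2) :
    ∃ q : ℕ, q.Prime ∧ q ≠ 2 ∧ q ∣ N := by
  obtain ⟨k, rfl⟩ := h2
  have hk1 : k ≠ 1 := by rintro rfl; exact hN2 rfl
  obtain ⟨q, hq, hqk⟩ := Nat.exists_prime_and_dvd hk1
  refine ⟨q, hq, ?_, Dvd.dvd.mul_left hqk 2⟩
  rintro rfl
  obtain ⟨j, rfl⟩ := hqk
  have h4 : (2 : ℕ) * 2 ∣ 2 * (2 * j) := ⟨j, by ring⟩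
  exact Nat.prime_two.not_isUnit (hN 2 h4)

/-- **Even levels are contradictory.** -/
theorem rib_even_false (hMP : StmtMPe) (hTR : StmtTRe) (P : FreyPackage)
    (hirr : GaloisRepIsIrreducible (K := AlgebraicClosure ℚ) ℚ P.freyCurve P.p)
    (hunr : ∀ q : ℕ, q.Prime → q ≠ 2 → q ≠ P.p → P.GaloisRepUnramifiedAt q) :
    ∀ N : ℕ, P.IsConductorLevel N → 2 ∣ N → ¬ P.p ∣ N → P.ModularRepOfLevel N → False := by
  intro N
  induction N using Nat.strong_induction_on with
  | _ N ih =>
    intro hcond h2 hpN hmod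
    by_cases hN2 : N = 2
    · subst hN2
      exact rib_not_modular_two P hmod
    -- it suffices to remove SOME odd prime
    have hstep : ∀ r : ℕ, r.Prime → r ≠ 2 → r ∣ N → Lowered P N r → False := by
      rintro r hr hr2 hrN ⟨M, hMN, hrM, hmodM⟩
      have hMpos : 0 < M := Nat.pos_of_dvd_of_pos hMN hcond.pos
      by_cases hM2 : 2 ∣ M
      · have hlt : M < N := by
          refine lt_of_le_of_ne (Nat.le_of_dvd hcond.pos hMN) ?_
          rintro rfl
          exact hrM hrN
        exact ih M hlt (hcond.of_dvd hMN hMpos) hM2 (fun h => hpN (h.trans hMN)) hmodM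
      · have h2M : 2 * M ∣ N :=
          Nat.Coprime.mul_dvd_of_dvd_of_dvd
            ((Nat.Prime.coprime_iff_not_dvd Nat.prime_two).mpr hM2) h2 hMN
        have hr2M : ¬ r ∣ 2 * M := by
          intro h
          rcases (Nat.Prime.dvd_mul hr).1 h with h | h
          · exact hr2 ((Nat.prime_dvd_prime_iff_eq hr Nat.prime_two).1 h)
          · exact hrM h
        have hpos : 0 < 2 * M := Nat.mul_pos two_pos hMpos
        have hlt : 2 * M < N := by
          refine lt_of_le_of_ne (Nat.le_of_dvd hcond.pos h2M) ?_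
          intro h
          exact hr2M (h ▸ hrN)
        exact ih (2 * M) hlt (hcond.of_dvd h2M hpos) (dvd_mul_right 2 M)
          (fun h => hpN (h.trans h2M)) (rib_raise P hpos.ne' (dvd_mul_left M 2) hmodM)
    obtain ⟨q, hq, hq2, hqN⟩ := rib_exists_odd_prime hcond.squarefree h2 hN2
    have hqp : q ≠ P.p := fun h => hpN (h ▸ hqN)
    rcases hMP P N q hcond h2 hpN hq hq2 hqp hqN hirr hmod (hunr q hq hq2 hqp) with h | _
    · exact hstep q hq hq2 hqN h
    · by_cases hall : ∀ r : ℕ, r.Prime → r ≠ 2 → r ∣ N → IsTrivialPrime P r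
      · exact hstep q hq hq2 hqN (hTR P N q hcond h2 hpN hq hq2 hqN hirr hmod hall)
      · push Not at hall
        obtain ⟨r, hr, hr2, hrN, hrt⟩ := hall
        have hrp : r ≠ P.p := fun h => hpN (h ▸ hrN)
        rcases hMP P N r hcond h2 hpN hr hr2 hrp hrN hirr hmod (hunr r hr hr2 hrp) with h | h
        · exact hstep r hr hr2 hrN h
        · exact hrt h

/-- **No Frey representation is modular of a conductor level.** -/
theorem rib_modular_false (hMP : StmtMPe) (hTR : StmtTRe) (hP : StmtPe) (P : FreyPackage)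
    (hirr : GaloisRepIsIrreducible (K := AlgebraicClosure ℚ) ℚ P.freyCurve P.p)
    (hunr : ∀ q : ℕ, q.Prime → q ≠ 2 → q ≠ P.p → P.GaloisRepUnramifiedAt q)
    (N : ℕ) (hcond : P.IsConductorLevel N) (hmod : P.ModularRepOfLevel N) : False := by
  -- an even level
  obtain ⟨N₁, hcond₁, h2₁, hmod₁⟩ : ∃ N₁, P.IsConductorLevel N₁ ∧ 2 ∣ N₁ ∧
      P.ModularRepOfLevel N₁ := by
    by_cases h2 : 2 ∣ N
    · exact ⟨N, hcond, h2, hmod⟩
    · have hc := rib_cond_two_mul P hcond h2
      exact ⟨2 * N, hc, dvd_mul_right 2 N, rib_raise P hc.pos.ne' (dvd_mul_left N 2) hmod⟩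
  -- an even level prime to `p`
  obtain ⟨N₂, hcond₂, h2₂, hp₂, hmod₂⟩ : ∃ N₂, P.IsConductorLevel N₂ ∧ 2 ∣ N₂ ∧ ¬ P.p ∣ N₂ ∧
      P.ModularRepOfLevel N₂ := by
    by_cases hp : P.p ∣ N₁
    · obtain ⟨M, hMN, hpM, hmodM⟩ := hP P N₁ hcond₁ h2₁ hp hirr hmod₁
      have hMpos : 0 < M := Nat.pos_of_dvd_of_pos hMN hcond₁.pos
      by_cases hM2 : 2 ∣ M
      · exact ⟨M, hcond₁.of_dvd hMN hMpos, hM2, hpM, hmodM⟩
      · have h2M : 2 * M ∣ N₁ :=
          Nat.Coprime.mul_dvd_of_dvd_of_dvd
            ((Nat.Prime.coprime_iff_not_dvd Nat.prime_two).mpr hM2) h2₁ hMN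
        have hpos : 0 < 2 * M := Nat.mul_pos two_pos hMpos
        refine ⟨2 * M, hcond₁.of_dvd h2M hpos, dvd_mul_right 2 M, ?_,
          rib_raise P hpos.ne' (dvd_mul_left M 2) hmodM⟩
        intro h
        rcases (Nat.Prime.dvd_mul P.pp).1 h with h | h
        · have := (Nat.prime_dvd_prime_iff_eq P.pp Nat.prime_two).1 h
          have := P.hp5
          omega
        · exact hpM h
    · exact ⟨N₁, hcond₁, h2₁, hp, hmod₁⟩
  exact rib_even_false hMP hTR P hirr hunr N₂ hcond₂ h2₂ hp₂ hmod₂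

/-- **GLUE, even form.**  The frozen statement S43 from `StmtMPe`, `StmtTRe`, `StmtPe` and the
unramifiedness of the Frey representation at the odd primes `≠ p` (= S05, on main). -/
theorem s43_of_even_parts (hMP : StmtMPe) (hTR : StmtTRe) (hP : StmtPe)
    (hS05 : ∀ (P : FreyPackage) (q : ℕ), q.Prime → q ≠ 2 → q ≠ P.p → P.GaloisRepUnramifiedAt q)
    (P : FreyPackage) {N q : ℕ} (hcond : P.IsConductorLevel N) (_hq : q.Prime) (_hq2 : q ≠ 2)
    (_hqp : q ≠ P.p) (_hqN : q ∣ N)
    (hirr : GaloisRepIsIrreducible (K := AlgebraicClosure ℚ) ℚ P.freyCurve P.p)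
    (hmod : P.ModularRepOfLevel N) (_hunr : P.GaloisRepUnramifiedAt q) :
    ∃ M : ℕ, M ∣ N ∧ ¬ q ∣ M ∧ P.ModularRepOfLevel M :=
  (rib_modular_false hMP hTR hP P hirr (hS05 P) N hcond hmod).elim

end Fermat.Agent.RIB
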