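/-
Row 37 (S43): TOP WIRING (helper43, captain).

`s43_of : MP.StmtRedE → MP.StmtFrobToricE → StmtTRe → StmtPe → (frozen S43)`.

The four inputs:
* `MP.StmtRedE`, `MP.StmtFrobToricE` : the two geometric pieces of Mazur's principle
  (`RIB/MP/PlanE.lean`);
* `StmtTRe` : the K-machine at even levels (`RT/Prod/Final.lean` gives `StmtTR`);
* `StmtPe`  : removal of `p` at even levels (row 38).
Everything else (`R38.stmtLift`, `MP.stmtRepN`, the glue, the stabilisation, S05, S07) is proved.
-/
import Fermat.Agent.RIB.PlanEven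
import Fermat.Agent.RIB.MP.PkgQ
import Fermat.Agent.S05

set_option autoImplicit false

open WeierstrassCurve WeierstrassCurve.Affine WeierstrassCurve.Affine.Point

namespace Fermat.Agent.RIB

/-- **No Frey representation is modular of a conductor level**, from the four open inputs. -/
theorem rib_modular_false_of (hRed : MP.StmtRedE) (hFrob : MP.StmtFrobToricE) (hTR : StmtTRe)
    (hP : StmtPe) (P : FreyPackage)
    (hirr : GaloisRepIsIrreducible (K := AlgebraicClosure ℚ) ℚ P.freyCurve P.p)
    (N : ℕ) (hcond : P.IsConductorLevel N) (hmod : P.ModularRepOfLevel N) : False :=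
  rib_modular_false (MP.stmtMPe_of_geom hRed hFrob) hTR hP P hirr
    (fun _ hq hq2 hqp => Fermat.Agent.S05.result P hq hq2 hqp) N hcond hmod

/-- **The frozen statement S43**, from the four open inputs. -/
theorem s43_of (hRed : MP.StmtRedE) (hFrob : MP.StmtFrobToricE) (hTR : StmtTRe) (hP : StmtPe)
    (P : FreyPackage) {N q : ℕ} (hcond : P.IsConductorLevel N) (_hq : q.Prime) (_hq2 : q ≠ 2)
    (_hqp : q ≠ P.p) (_hqN : q ∣ N)
    (hirr : GaloisRepIsIrreducible (K := AlgebraicClosure ℚ) ℚ P.freyCurve P.p)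
    (hmod : P.ModularRepOfLevel N) (_hunr : P.GaloisRepUnramifiedAt q) :
    ∃ M : ℕ, M ∣ N ∧ ¬ q ∣ M ∧ P.ModularRepOfLevel M :=
  (rib_modular_false_of hRed hFrob hTR hP P hirr N hcond hmod).elim

end Fermat.Agent.RIB
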