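import Fermat.Agent.RIB.TR
import Fermat.Agent.RT.G2.Main
import Fermat.Agent.RT.Out
import Fermat.Agent.RT.K2.Domain
import Fermat.Agent.RT.K2b.Qur

/-!
# Row 37, the K-machine: the algebraic side is CLOSED

`stmtTR_of_prod : StmtProd → StmtTR`: the statement `StmtTR` (all odd primes of `N` trivial ⇒ any
odd `q ∣ N` can be removed) follows from the product `StmtProd` of the arithmetic side alone.
The algebraic inputs of `stmtTR_of` are discharged here:
* `stmtK2Dom` : `StmtK2Dom` (helper27's `rtk2_Ichi_isPrime`);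
* `stmtK2Qur` : `StmtK2Qur` (`rtk2b_Qur_isPrime`, `rtk2b_cramer_not_mem`);
* `RT.G2.stmtG2`, `RT.stmtOutTW`.
-/

set_option autoImplicit false
set_option linter.style.haveILetI false

namespace Fermat.Agent.RIB

open Fermat.Agent.RT Fermat.Agent.RT.K2 IsLocalRing

section Aux

variable {O : Type*} [CommRing O] [IsDomain O] [IsDiscreteValuationRing O]

/-- A generator of the maximal ideal of a discrete valuation ring is irreducible. -/
theorem ribtr_irreducible {lam : O} (hlam : maximalIdeal O = Ideal.span {lam}) :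
    Irreducible lam :=
  (IsDiscreteValuationRing.irreducible_iff_uniformizer lam).mpr hlam

theorem ribtr_prime {lam : O} (hlam : maximalIdeal O = Ideal.span {lam}) : Prime lam :=
  (ribtr_irreducible hlam).prime

theorem ribtr_span_isPrime {lam : O} (hlam : maximalIdeal O = Ideal.span {lam}) :
    (Ideal.span {lam}).IsPrime := by
  rw [← hlam]
  infer_instance

theorem ribtr_two_not_mem {lam : O} (hlam : maximalIdeal O = Ideal.span {lam})
    (h2 : IsUnit (2 : O)) : (2 : O) ∉ Ideal.span {lam} := by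
  rw [← hlam, IsLocalRing.notMem_maximalIdeal]
  exact h2

/-- A nonzero multiple of the uniformiser is `λ ^ (k + 1) · unit`. -/
theorem ribtr_eq_pow_mul_unit {lam : O} (hlam : maximalIdeal O = Ideal.span {lam})
    {x : O} (hx : ∃ r, x = lam * r) (hx0 : x ≠ 0) :
    ∃ (k : ℕ) (u : O), IsUnit u ∧ x = lam ^ (k + 1) * u := by
  obtain ⟨r, rfl⟩ := hx
  have hr0 : r ≠ 0 := by
    rintro rfl
    exact hx0 (mul_zero _)
  obtain ⟨n, u, hu⟩ := IsDiscreteValuationRing.eq_unit_mul_pow_irreducible hr0
    (ribtr_irreducible hlam)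
  refine ⟨n, (u : O), u.isUnit, ?_⟩
  rw [hu]
  ring

end Aux

/-- **K2, the domain theorem**, in the form consumed by `stmtTR_of`. -/
theorem stmtK2Dom : StmtK2Dom := by
  intro O _ _ _ lam hlam _ ι τ _ _ δ hδ hδ0
  exact rtk2_Ichi_isPrime (τ := τ) (ribtr_prime hlam)
    (fun i => ribtr_eq_pow_mul_unit hlam (hδ i) (hδ0 i))

/-- **K2-e**, in the form consumed by `stmtTR_of`. -/
theorem stmtK2Qur : StmtK2Qur := by
  intro O _ _ _ lam hlam h2 ι τ _ _ q hq
  exact ⟨Fermat.Agent.RT.K2b.rtk2b_Qur_isPrime lam (ribtr_span_isPrime hlam),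
    fun i => Fermat.Agent.RT.K2b.rtk2b_cramer_not_mem lam (ribtr_span_isPrime hlam)
      (ribtr_two_not_mem hlam h2) q i (hq i)⟩

/-- **The algebraic side of the K-machine is closed**: `StmtTR` follows from the product of the
arithmetic side. -/
theorem stmtTR_of_prod (hprod : StmtProd) : StmtTR :=
  stmtTR_of hprod Fermat.Agent.RT.G2.stmtG2 Fermat.Agent.RT.stmtOutTW stmtK2Dom stmtK2Qur

end Fermat.Agent.RIB
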