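/-
Row 37, the K-machine at the trivial primes: TOP-LEVEL WIRING of `StmtTR`, EVEN (symmetric) form.
(helper27, on the request of the captain helper43)

`ProdDataE P N q` is `ProdData P N q` (`RIB/TR.lean`) with a number `h` of Taylor–Wiles
variables and the level data in the even form `RT.TWDatumE` (only the series even in the first
`h` variables act through the Hecke rings).

* `StmtProdE`        : the arithmetic side delivers `ProdDataE`;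
* `stmtTR_of_E`      : `StmtTR` from `StmtProdE`, `RT.StmtG2E`, `RT.StmtOutTWE`, `StmtK2Dom`,
                       `StmtK2Qur`;
* `stmtTR_of_prodE`  : **`StmtProdE → StmtTR`** (all algebraic inputs discharged:
                       `RT.G2.stmtG2E`, `RT.Even.stmtOutTWE`, `stmtK2Dom`, `stmtK2Qur`);
* `ProdData.toE`, `stmtProdE_of_prod` : the old product is an even one (`h = 0`).
-/
import Fermat.Agent.RIB.TRCore
import Fermat.Agent.RT.G2.MainE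
import Fermat.Agent.RT.Even.Final

set_option autoImplicit false

open WeierstrassCurve WeierstrassCurve.Affine WeierstrassCurve.Affine.Point

namespace Fermat.Agent.RIB

open Fermat.Agent.RT Fermat.Agent.RT.K2 IsLocalRing

/-- **The product of the arithmetic side** for `(P, N, q)`, even form. -/
structure ProdDataE (P : FreyPackage) (N q : ℕ) : Type 1 where
  /-- the coefficient ring (`ℤ_p[ζ_p]`) -/
  O : Type
  [instCommRing : CommRing O]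
  [instIsDomain : IsDomain O]
  [instDVR : IsDiscreteValuationRing O]
  [instComplete : IsAdicComplete (maximalIdeal O) O]
  [instFinite : Finite (ResidueField O)]
  lam : O
  hlam : maximalIdeal O = Ideal.span {lam}
  h2 : IsUnit (2 : O)
  /-- the trivial primes -/
  ι : Type
  /-- the free variables -/
  τ : Type
  [instFintypeι : Fintype ι]
  [instFintypeτ : Fintype τ]
  /-- `qq i` = the `i`-th trivial prime in `O`, `s i ^ 2 = qq i`, `tχ i = (ζ + ζ⁻¹)/2`,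
  `δ i = (ζ − ζ⁻¹)/2` -/
  qq : ι → O
  s : ι → O
  tχ : ι → O
  δ : ι → O
  hs : ∀ i, s i ^ 2 = qq i
  hs1 : ∀ i, ∃ r, s i = 1 + lam * r ∨ s i = -1 + lam * r
  hqq : ∀ i, ∃ r, qq i = 1 + lam * r
  hqq1 : ∀ i, qq i ≠ 1
  htδ : ∀ i, tχ i ^ 2 - δ i ^ 2 = 1
  htχ : ∀ i, ∃ r, tχ i = 1 + lam * r
  hδ : ∀ i, ∃ r, δ i = lam * r
  hδ0 : ∀ i, δ i ≠ 0
  m : ℕ
  /-- the number of Taylor–Wiles variables (the first `h` variables of `S`) -/
  h : ℕ
  d : ℕ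
  hm : 3 * Fintype.card ι + Fintype.card τ ≤ m
  hd : 0 < d
  /-- the base Hecke ring -/
  T0 : Type
  [instCommRingT0 : CommRing T0]
  [instAlgebraT0 : Algebra O T0]
  [instFiniteT0 : Module.Finite O T0]
  j0 : T0 →ₐ[O] Matrix (Fin d) (Fin d) O
  hj0 : Function.Injective j0
  Sig0 : ι → Matrix (Fin 2) (Fin 2) T0
  Phi0 : ι → Matrix (Fin 2) (Fin 2) T0
  Psi0 : ι → Matrix (Fin 2) (Fin 2) T0
  hPsi0 : ∀ i, IsCayleyParam (algebraMap O T0 (s i)) (Phi0 i) (Psi0 i)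
  level : ∀ n : ℕ, ∃ (T1 : Type) (_ : CommRing T1) (_ : Algebra O T1)
      (j1 : T1 →ₐ[O] Matrix (Fin d) (Fin d) (RttwS O m ⧸ maximalIdeal (RttwS O m) ^ n))
      (Sig1 Phi1 : ι → Matrix (Fin 2) (Fin 2) T1) (x1 : τ → T1)
      (Tχ : Type) (_ : CommRing Tχ) (_ : Algebra O Tχ)
      (jχ : Tχ →ₐ[O] Matrix (Fin d) (Fin d) (RttwS O m ⧸ maximalIdeal (RttwS O m) ^ n))
      (Sigχ Phiχ : ι → Matrix (Fin 2) (Fin 2) Tχ) (xχ : τ → Tχ),
      TWDatumE qq s tχ lam m h d j0 Sig0 Phi0 n j1 Sig1 Phi1 x1 jχ Sigχ Phiχ xχ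
  interp : ∀ 𝔓 : Ideal T0, 𝔓.IsPrime → algebraMap O T0 lam ∉ 𝔓 →
    (∀ i, (Sig0 i - 1) 0 0 ∈ 𝔓 ∧ (Sig0 i - 1) 0 1 ∈ 𝔓 ∧ (Sig0 i - 1) 1 0 ∈ 𝔓) → Lowered P N q

attribute [instance] ProdDataE.instCommRing ProdDataE.instIsDomain ProdDataE.instDVR
  ProdDataE.instComplete ProdDataE.instFinite ProdDataE.instFintypeι ProdDataE.instFintypeτ
  ProdDataE.instCommRingT0 ProdDataE.instAlgebraT0 ProdDataE.instFiniteT0

/-- **PROD, even form**: the arithmetic side delivers `ProdDataE` in the situation of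
`StmtTR`. -/
def StmtProdE : Prop :=
  ∀ (P : FreyPackage) (N q : ℕ), P.IsConductorLevel N → ¬ P.p ∣ N → q.Prime → q ≠ 2 →
    q ∣ N → GaloisRepIsIrreducible (K := AlgebraicClosure ℚ) ℚ P.freyCurve P.p →
    P.ModularRepOfLevel N →
    (∀ r : ℕ, r.Prime → r ≠ 2 → r ∣ N → IsTrivialPrime P r) →
    Nonempty (ProdDataE P N q)

/-- **TR-wiring, even form.** -/
theorem stmtTR_of_E (hprod : StmtProdE) (hG2 : StmtG2E) (hout : StmtOutTWE) (hdom : StmtK2Dom)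
    (hqur : StmtK2Qur) : StmtTR := by
  intro P N q hcond hpN hq hq2 hqN hirr hmod hall
  obtain ⟨D⟩ := hprod P N q hcond hpN hq hq2 hqN hirr hmod hall
  have hχ : (rtk2Ichi D.τ D.δ).IsPrime :=
    hdom D.O D.lam D.hlam D.h2 D.ι D.τ D.δ D.hδ D.hδ0
  obtain ⟨hQ, hCr⟩ := hqur D.O D.lam D.hlam D.h2 D.ι D.τ D.qq D.hqq
  have hlev : ∀ n : ℕ, ∃ ρ1 ρχ, TWLevelE (τ := D.τ) D.qq D.δ D.lam D.m D.h D.d
      (fun x => D.j0 (rttwBaseVal D.Sig0 D.Psi0 x)) (Set.range D.j0) n ρ1 ρχ := by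
    intro n
    obtain ⟨T1, i1, i2, j1, Sig1, Phi1, x1, Tχ, i3, i4, jχ, Sigχ, Phiχ, xχ, hdat⟩ := D.level n
    exact hG2 D.O D.lam D.hlam D.h2 D.ι D.τ D.qq D.s D.tχ D.δ D.hs D.hs1 D.htδ D.htχ D.hδ
      D.m D.h D.d D.T0 D.j0 D.Sig0 D.Phi0 D.Psi0 D.hPsi0 n T1 j1 Sig1 Phi1 x1 Tχ jχ Sigχ Phiχ xχ
      hdat
  obtain ⟨𝔓, h𝔓, hlam𝔓, hB⟩ := hout D.O D.lam D.hlam D.h2 D.ι D.τ D.qq D.δ D.hqq D.hqq1 D.hδ
    D.m D.h D.d D.hm D.hd hχ hQ hCr D.T0 D.j0 D.hj0 (rttwBaseVal D.Sig0 D.Psi0) hlev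
  refine D.interp 𝔓 h𝔓 hlam𝔓 fun i => ?_
  obtain ⟨h0, h1, h2⟩ := hB i
  exact ⟨h0, h1, h2⟩

/-- **The algebraic side of the K-machine is closed, even form**: `StmtTR` follows from the
even product `StmtProdE` of the arithmetic side alone. -/
theorem stmtTR_of_prodE (hprod : StmtProdE) : StmtTR :=
  stmtTR_of_E hprod Fermat.Agent.RT.G2.stmtG2E Fermat.Agent.RT.Even.stmtOutTWE stmtK2Dom
    stmtK2Qur

section OfOld

variable {O : Type*} [CommRing O] [IsLocalRing O] {ι τ : Type*}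

/-- A Taylor–Wiles datum is an even one (for every `h`). -/
theorem ribtre_datum_toE {q s tχ : ι → O} {lam : O} {m d : ℕ}
    {T0 : Type*} [CommRing T0] [Algebra O T0] {j0 : T0 →ₐ[O] Matrix (Fin d) (Fin d) O}
    {Sig0 Phi0 : ι → Matrix (Fin 2) (Fin 2) T0} {n : ℕ}
    {T1 : Type*} [CommRing T1] [Algebra O T1]
    {j1 : T1 →ₐ[O] Matrix (Fin d) (Fin d) (RttwS O m ⧸ maximalIdeal (RttwS O m) ^ n)}
    {Sig1 Phi1 : ι → Matrix (Fin 2) (Fin 2) T1} {x1 : τ → T1}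
    {Tχ : Type*} [CommRing Tχ] [Algebra O Tχ]
    {jχ : Tχ →ₐ[O] Matrix (Fin d) (Fin d) (RttwS O m ⧸ maximalIdeal (RttwS O m) ^ n)}
    {Sigχ Phiχ : ι → Matrix (Fin 2) (Fin 2) Tχ} {xχ : τ → Tχ}
    (H : TWDatum q s tχ lam m d j0 Sig0 Phi0 n j1 Sig1 Phi1 x1 jχ Sigχ Phiχ xχ) (h : ℕ) :
    TWDatumE q s tχ lam m h d j0 Sig0 Phi0 n j1 Sig1 Phi1 x1 jχ Sigχ Phiχ xχ where
  side1 := H.side1.toE _
  sideχ := H.sideχ.toE _
  rel1 := H.rel1
  relχ := H.relχ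
  cong_sig := H.cong_sig
  cong_phi := H.cong_phi
  cong_x := H.cong_x
  base_sig := H.base_sig
  base_phi := H.base_phi
  base_T0 := H.base_T0

end OfOld

/-- The old product is an even one (with `h = 0`). -/
def ProdData.toE {P : FreyPackage} {N q : ℕ} (D : ProdData P N q) : ProdDataE P N q where
  O := D.O
  lam := D.lam
  hlam := D.hlam
  h2 := D.h2
  ι := D.ι
  τ := D.τ
  qq := D.qq
  s := D.s
  tχ := D.tχ
  δ := D.δ
  hs := D.hs
  hs1 := D.hs1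
  hqq := D.hqq
  hqq1 := D.hqq1
  htδ := D.htδ
  htχ := D.htχ
  hδ := D.hδ
  hδ0 := D.hδ0
  m := D.m
  h := 0
  d := D.d
  hm := D.hm
  hd := D.hd
  T0 := D.T0
  j0 := D.j0
  hj0 := D.hj0
  Sig0 := D.Sig0
  Phi0 := D.Phi0
  Psi0 := D.Psi0
  hPsi0 := D.hPsi0
  level := fun n => by
    obtain ⟨T1, i1, i2, j1, Sig1, Phi1, x1, Tχ, i3, i4, jχ, Sigχ, Phiχ, xχ, hdat⟩ := D.level n
    exact ⟨T1, i1, i2, j1, Sig1, Phi1, x1, Tχ, i3, i4, jχ, Sigχ, Phiχ, xχ,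
      ribtre_datum_toE hdat 0⟩
  interp := D.interp

theorem stmtProdE_of_prod (hprod : StmtProd) : StmtProdE := by
  intro P N q hcond hpN hq hq2 hqN hirr hmod hall
  obtain ⟨D⟩ := hprod P N q hcond hpN hq hq2 hqN hirr hmod hall
  exact ⟨D.toE⟩

end Fermat.Agent.RIB
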