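/-
Row 37 (S43): TOP WIRING TEST (helper17, for captain helper43).

`s43_top` instantiates, in ONE file, `RT.rthk_final_inst` (HECKE-asm), `RT.Prod.stmtTR_of_contractsE`
(the K-machine) and `RIB.s43_of` (the top glue), with the OPEN Props as hypotheses:

  `MP.StmtRedE`, `MP.StmtFrobToricE`          (Mazur's principle, geometric pieces)
  `RT.Prod.StmtKSetup`, `RT.StmtHkModSide`     (K-machine: setup, module side of HECKE)
  `∀ O, RT.StmtK3Sel O`, `RT.Interp.StmtK8E`   (K3-Sel, K8 restricted)
  `RIB.StmtP`                                  (row 38 = frozen S44 shape)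

and concludes the frozen statement S43 (binder for binder).
-/
import Fermat.Agent.RIB.S43Of
import Fermat.Agent.RT.Prod.Final
import Fermat.Agent.RT.Hecke.FinalInst

set_option autoImplicit false

open WeierstrassCurve WeierstrassCurve.Affine WeierstrassCurve.Affine.Point
open IsLocalRing

namespace Fermat.Agent.RIB

/-- **Row 37, top wiring**: the frozen statement S43 from the open Props of the campaign. -/
theorem s43_top (hRed : MP.StmtRedE) (hFrob : MP.StmtFrobToricE)
    (hsetup : Fermat.Agent.RT.Prod.StmtKSetup) (hMod : Fermat.Agent.RT.StmtHkModSide)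
    (hsel : ∀ (O : Type) [CommRing O] [IsDomain O] [IsDiscreteValuationRing O]
      [IsAdicComplete (maximalIdeal O) O] [Finite (ResidueField O)],
      Fermat.Agent.RT.StmtK3Sel O)
    (hK8 : Fermat.Agent.RT.Interp.StmtK8E) (hP : StmtP)
    (P : FreyPackage) {N q : ℕ} (hcond : P.IsConductorLevel N) (hq : q.Prime) (hq2 : q ≠ 2)
    (hqp : q ≠ P.p) (hqN : q ∣ N)
    (hirr : GaloisRepIsIrreducible (K := AlgebraicClosure ℚ) ℚ P.freyCurve P.p)
    (hmod : P.ModularRepOfLevel N) (hunr : P.GaloisRepUnramifiedAt q) :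
    ∃ M : ℕ, M ∣ N ∧ ¬ q ∣ M ∧ P.ModularRepOfLevel M :=
  s43_of hRed hFrob
    (stmtTRe_of (Fermat.Agent.RT.Prod.stmtTR_of_contractsE hsetup
      (Fermat.Agent.RT.rthk_final_inst hMod) hsel hK8))
    (stmtPe_of hP) P hcond hq hq2 hqp hqN hirr hmod hunr

end Fermat.Agent.RIB
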