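/-
Row 37 (S43): THE MASTER WIRING (helper17, integration owner of the S43 root; captain helper43).

`s43_master : RT.StmtHkModSide → RIB.StmtP → frozen S43` = `s43_top` (RIB/S43Top.lean) with the
closed leaves plugged:

  `MP.StmtRedE`        := `MP.stmtRedE_of_fac MP.ribmp_froball_fac`        (MP-RED, MP-FAC)
  `MP.StmtFrobToricE`  := `MP.stmtFrobToricE`                               (MP-FROB)
  `Prod.StmtKSetup`    := `RT.Prod.stmtKSetup`                              (KSETUP)
  `∀ O, StmtK3Sel O`   := `RT.stmtK3Sel`                                    (K3-Sel)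
  `Interp.StmtK8E`     := `rtint_k8E_of_geoE (stmtK8GeoE_of_fac … ribmp_red_pow_of_fac …)`  (K8)

OPEN inputs: `RT.StmtHkModSide` (module side of HECKE, K6/K7) and `RIB.StmtP` (row 38 = the
frozen S44 shape).
-/
import Fermat.Agent.RIB.S43Top
import Fermat.Agent.RIB.MP.RedMain
import Fermat.Agent.RIB.MP.FrobAll
import Fermat.Agent.RT.Prod.SetupDone
import Fermat.Agent.RT.K3.Done
import Fermat.Agent.RT.K8.GeoFinal

set_option autoImplicit false

open WeierstrassCurve WeierstrassCurve.Affine WeierstrassCurve.Affine.Point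
open IsLocalRing

namespace Fermat.Agent.RIB

/-- MP-RED at the exponents `p ^ n`, unconditional. -/
theorem s43m_stmtRedPow : Fermat.Agent.RT.K8.StmtRedPow :=
  fun M₁ q _ _ _ hq hqM hE hq2 p hp hp5 hpq A hA n x hx hI ℓ hℓ =>
    MP.ribmp_red_pow_of_fac MP.ribmp_froball_fac M₁ q hq hqM hE hq2 p hp hp5 hpq n A hA x hx hI
      ℓ hℓ

/-- K8 (restricted form), unconditional. -/
theorem s43m_stmtK8E : Fermat.Agent.RT.Interp.StmtK8E :=
  Fermat.Agent.RT.Interp.rtint_k8E_of_geoE
    (Fermat.Agent.RT.K8.stmtK8GeoE_of_fac MP.ribmp_froball_fac s43m_stmtRedPow)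

/-- **Row 37, master wiring**: the frozen statement S43 from the module side of HECKE and
row 38. -/
theorem s43_master (hMod : Fermat.Agent.RT.StmtHkModSide) (hP : StmtP)
    (P : FreyPackage) {N q : ℕ} (hcond : P.IsConductorLevel N) (hq : q.Prime) (hq2 : q ≠ 2)
    (hqp : q ≠ P.p) (hqN : q ∣ N)
    (hirr : GaloisRepIsIrreducible (K := AlgebraicClosure ℚ) ℚ P.freyCurve P.p)
    (hmod : P.ModularRepOfLevel N) (hunr : P.GaloisRepUnramifiedAt q) :
    ∃ M : ℕ, M ∣ N ∧ ¬ q ∣ M ∧ P.ModularRepOfLevel M :=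
  s43_top (MP.stmtRedE_of_fac MP.ribmp_froball_fac) MP.stmtFrobToricE
    Fermat.Agent.RT.Prod.stmtKSetup hMod (fun O _ _ _ _ _ => Fermat.Agent.RT.stmtK3Sel O)
    s43m_stmtK8E hP P hcond hq hq2 hqp hqN hirr hmod hunr

end Fermat.Agent.RIB
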