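/-
Row 37 (S43): THE CONDITIONAL ROOT ON THE OPEN LEAVES (helper17, integration owner of the S43 root).

`s43_open : RT.K6.StmtRtk6GeomChi → RT.StmtHkfK5' → R38.StmtMonoCover → frozen S43`

Everything which is closed on main is discharged here:
* `RT.K7F.stmtFlatH` (K7-FLAT), `RT.K6.rtk6uf_geomUnip` (K6, the unipotent case), `RT.K6.rtk6_master`,
  `RT.rthkf_modSide` (HK-CONC);
* `R38.stmtEisNormK`, `R38.stmtMonoFix`, `R38.s44_of_open` (row 38);
* `s43_master` (MP, K3, K8, PROD set-up).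
The three hypotheses are the ONLY open Props of rows 37 + 38:
* `RT.K6.StmtRtk6GeomChi` (K6, the case χ), `RT.StmtHkfK5'` (the K5 side of HK-CONC),
* `R38.StmtMonoCover` (row 38).
-/
import Fermat.Agent.RIB.S43Master
import Fermat.Agent.RT.Hecke.ConcDone
import Fermat.Agent.RT.K7F.Final
import Fermat.Agent.RT.K6.Master
import Fermat.Agent.RT.K6.UnipFinal
import Fermat.Agent.R38.TresTrivOf
import Fermat.Agent.R38.TresEisFinal
import Fermat.Agent.R38.TresMonoFix

set_option autoImplicit false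

open WeierstrassCurve WeierstrassCurve.Affine WeierstrassCurve.Affine.Point

namespace Fermat.Agent.RIB

/-- the module side of HECKE from the two open Props of the K-machine -/
theorem s43o_modSide (hχ : Fermat.Agent.RT.K6.StmtRtk6GeomChi)
    (hK5 : Fermat.Agent.RT.StmtHkfK5') : Fermat.Agent.RT.StmtHkModSide :=
  Fermat.Agent.RT.rthkf_modSide Fermat.Agent.RT.K7F.stmtFlatH
    (Fermat.Agent.RT.K6.rtk6_master hχ Fermat.Agent.RT.K6.rtk6uf_geomUnip) hK5

/-- row 38 (`StmtP`) from its open Prop -/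
theorem s43o_stmtP (hCov : Fermat.Agent.R38.StmtMonoCover) : StmtP :=
  Fermat.Agent.R38.s44_of_open Fermat.Agent.R38.stmtEisNormK Fermat.Agent.R38.stmtMonoFix hCov

/-- **Row 37, conditional root on the open leaves**: the frozen statement S43 from the three
open Props of rows 37 and 38. -/
theorem s43_open (hχ : Fermat.Agent.RT.K6.StmtRtk6GeomChi)
    (hK5 : Fermat.Agent.RT.StmtHkfK5') (hCov : Fermat.Agent.R38.StmtMonoCover)
    (P : FreyPackage) {N q : ℕ} (hcond : P.IsConductorLevel N) (hq : q.Prime) (hq2 : q ≠ 2)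
    (hqp : q ≠ P.p) (hqN : q ∣ N)
    (hirr : GaloisRepIsIrreducible (K := AlgebraicClosure ℚ) ℚ P.freyCurve P.p)
    (hmod : P.ModularRepOfLevel N) (hunr : P.GaloisRepUnramifiedAt q) :
    ∃ M : ℕ, M ∣ N ∧ ¬ q ∣ M ∧ P.ModularRepOfLevel M :=
  s43_master (s43o_modSide hχ hK5) (s43o_stmtP hCov)
    P hcond hq hq2 hqp hqN hirr hmod hunr

end Fermat.Agent.RIB
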