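/-
Row 37 (S43): THE ROOT ON THE LAST OPEN LEAF (helper17, integration owner of the S43 root).

`s43_of_cover : R38.StmtMonoCover → frozen S43`

The T side of row 37 is closed on main: K6 (χ) `RT.K6.rtk6c4at_geomChi`, K6 (U)
`RT.K6.rtk6uf_geomUnip`, K5' `RT.rthkk5_main`, K7-FLAT `RT.K7F.stmtFlatH`, and K3, K8, MP, PROD
inside `s43_master`.  Row 38 enters through `R38.s44_of_open`, whose only open Prop is
`R38.StmtMonoCover`.
-/
import Fermat.Agent.RIB.S43Open
import Fermat.Agent.RT.K6.C4AsmThinInv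
import Fermat.Agent.RT.Hecke.ConcK5Fin

set_option autoImplicit false

open WeierstrassCurve WeierstrassCurve.Affine WeierstrassCurve.Affine.Point

namespace Fermat.Agent.RIB

/-- the module side of HECKE, unconditional -/
theorem s43c_modSide : Fermat.Agent.RT.StmtHkModSide :=
  s43o_modSide Fermat.Agent.RT.K6.rtk6c4at_geomChi
    (Fermat.Agent.RT.rthkk5_main Fermat.Agent.RT.K7F.stmtFlatH)

/-- **Row 37 from row 38**: the frozen statement S43 from `RIB.StmtP` (= row 38). -/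
theorem s43_of_stmtP (hP : StmtP)
    (P : FreyPackage) {N q : ℕ} (hcond : P.IsConductorLevel N) (hq : q.Prime) (hq2 : q ≠ 2)
    (hqp : q ≠ P.p) (hqN : q ∣ N)
    (hirr : GaloisRepIsIrreducible (K := AlgebraicClosure ℚ) ℚ P.freyCurve P.p)
    (hmod : P.ModularRepOfLevel N) (hunr : P.GaloisRepUnramifiedAt q) :
    ∃ M : ℕ, M ∣ N ∧ ¬ q ∣ M ∧ P.ModularRepOfLevel M :=
  s43_master s43c_modSide hP P hcond hq hq2 hqp hqN hirr hmod hunr

/-- **Row 37 on its last open leaf**: the frozen statement S43 from `R38.StmtMonoCover`. -/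
theorem s43_of_cover (hCov : Fermat.Agent.R38.StmtMonoCover)
    (P : FreyPackage) {N q : ℕ} (hcond : P.IsConductorLevel N) (hq : q.Prime) (hq2 : q ≠ 2)
    (hqp : q ≠ P.p) (hqN : q ∣ N)
    (hirr : GaloisRepIsIrreducible (K := AlgebraicClosure ℚ) ℚ P.freyCurve P.p)
    (hmod : P.ModularRepOfLevel N) (hunr : P.GaloisRepUnramifiedAt q) :
    ∃ M : ℕ, M ∣ N ∧ ¬ q ∣ M ∧ P.ModularRepOfLevel M :=
  s43_of_stmtP (s43o_stmtP hCov) P hcond hq hq2 hqp hqN hirr hmod hunr

end Fermat.Agent.RIB
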