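import Fermat.Agent.S15.RedPkg
import Fermat.Agent.S15.Div1Final
import Fermat.Agent.W1.GeoEval
import Fermat.Agent.S05.FreyArith

/-!
# (SURJ-q): the specialization map is onto the torsion prime to the residue characteristic

Abstract part (reduction package `R : PRData K F k Fk A` of `W1/PlanGeo.lean`, `K` algebraically
closed, nice curves of the same genus):

* `surjq_sp_surjective` : `sp : Pic⁰(F) → Pic⁰(F̄)`, `[D] ↦ [r_* D]`, is onto
  (`W1.stmtOnto`: every place of `F̄` is the reduction of a place of `F`);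
* `surjq_exists_torsion_lift` : for `m` a unit of `A`, every `y ∈ Pic⁰(F̄)[m]` is `sp x` with
  `m • x = 0`  (`S15.stmtDiv1`: the kernel of reduction is `m`-divisible).

Modular part (`ModPRG`, the reduction package of `X₀(N)` at `A ∣ ℓ`, `ℓ ∤ N`, of
`S15/RedPkg.lean`; it exists by `s15red_exists_pkg` for `5 ≤ ℓ ∨ (5 - ℓ) ∣ N`):

* `surjq_modular_sp_surjective` : `sp : J₀(N) → Pic⁰(F̄_N)` is onto;
* `surjq_modular` : **(SURJ-q)** for `ℓ ∤ m`, every `y ∈ Pic⁰(F̄_N)[m]` is `sp x`, `m • x = 0`;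
* `surjq_modular_unique` : this `x` is unique (S18);
* `surjq_modular_bijOn` : `sp` is a bijection `J₀(N)[m] → Pic⁰(F̄_N)[m]`;
* `surjq_exists` : existence of the package with all of this, for `ℓ ∤ N`, `5 ≤ ℓ ∨ (5 - ℓ) ∣ N`.
-/

set_option autoImplicit false
set_option linter.unusedSectionVars false
set_option linter.style.haveILetI false
set_option synthInstance.maxHeartbeats 400000
set_option maxHeartbeats 1600000

open ModularCurve AlgebraicCurve Module

namespace Fermat.Agent.RIB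

open Fermat.Agent.W1 Fermat.Agent.S15 Fermat.Agent.S24 Fermat.Agent.ES.M Fermat.Agent.DEU

/-! ## 1. Abstract part -/

section Abstract

variable {K F k Fk : Type} [Field K] [Field F] [Algebra K F] [Field k] [Field Fk] [Algebra k Fk]
variable {A : ValuationSubring K}

/-- the specialization map is onto -/
theorem surjq_sp_surjective (R : PRData K F k Fk A) (hR : R.IsPR) {g : ℕ}
    (hF : IsNiceCurve K F g) (hFk : IsNiceCurve k Fk g) :
    Function.Surjective (s15red_sp R hR hF.hres hFk.hres) := by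
  intro y
  obtain ⟨E, rfl⟩ := Pic0.mk_surjective y
  have honto : Function.Surjective R.r := stmtOnto K F k Fk A R g hR hF hFk
  obtain ⟨s, hs⟩ := honto.hasRightInverse
  have hrs : R.r ∘ s = id := funext hs
  have hmap : Finsupp.mapDomain R.r (Finsupp.mapDomain s (E : Divisor k Fk)) =
      (E : Divisor k Fk) := by
    rw [← Finsupp.mapDomain_comp, hrs, Finsupp.mapDomain_id]
  have hdeg : Finsupp.mapDomain s (E : Divisor k Fk) ∈ Divisor.degZero (K := K) (F := F) := by
    rw [Divisor.mem_degZero, ← c1_degree_mapDomain hF.hres hFk.hres R.r, hmap]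
    exact Divisor.mem_degZero.mp E.2
  refine ⟨Pic0.mk ⟨_, hdeg⟩, ?_⟩
  rw [s15red_sp_mk]
  congr 1
  exact Subtype.ext hmap

/-- **(SURJ), abstract form**: torsion classes of order prime to the residue characteristic
lift to torsion classes. -/
theorem surjq_exists_torsion_lift [IsAlgClosed K] (R : PRData K F k Fk A) (hR : R.IsPR) {g : ℕ}
    (hF : IsNiceCurve K F g) (hFk : IsNiceCurve k Fk g) (hO : R.Orth)
    {m : ℕ} (hm : (m : K) ∉ A.nonunits) (y : Pic0 k Fk) (hy : m • y = 0) :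
    ∃ x : Pic0 K F, m • x = 0 ∧ s15red_sp R hR hF.hres hFk.hres x = y := by
  obtain ⟨x₀, hx₀⟩ := surjq_sp_surjective R hR hF hFk y
  have h1 : m • x₀ ∈ R.J1 := by
    rw [← s15red_sp_eq_zero_iff R hR hF.hres hFk.hres, map_nsmul, hx₀, hy]
  obtain ⟨z, hz, hmz⟩ := stmtDiv1 K F k Fk A R g hR hF hFk hO m hm (m • x₀) h1
  refine ⟨x₀ - z, ?_, ?_⟩
  · rw [nsmul_sub, hmz, sub_self]
  · rw [map_sub, (s15red_sp_eq_zero_iff R hR hF.hres hFk.hres z).mpr hz, sub_zero, hx₀]

end Abstract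

/-! ## 2. Modular part -/

section Modular

variable {N : ℕ} [NeZero N] {A : ValuationSubring Kb} {ℓ : ℕ} {hℓ : ℓ.Prime}
  {hA : A.LiesOverPrime ℓ} {hRedF : StmtRedF N A}
  {r : Place Kb (FF N) → Place (kA A) ↥(modularFunctionFieldFullC (kA A) N)}
  {sp : JZero N →+ JZeroC (kA A) N} {Pinf : Place Kb (FF N)}
  {Qinf : Place (kA A) ↥(modularFunctionFieldFullC (kA A) N)}

/-- the specialization map of the package is the generic one -/
theorem surjq_sp_eq (h : ModPRG N A hℓ hA hRedF r sp Pinf Qinf) (x : JZero N) :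
    sp x = s15red_sp (modPRData N A hRedF r) h.modPR.isPR h.modPR.nice.hres
      h.modPR.nice_k.hres x := by
  obtain ⟨D, rfl⟩ := Pic0.mk_surjective x
  rw [s15red_sp_mk]
  exact h.sp_mk D (s15red_degZeroHom (modPRData N A hRedF r) h.modPR.nice.hres
    h.modPR.nice_k.hres D).2

/-- the specialization map `J₀(N) → Pic⁰(F̄_N)` is onto -/
theorem surjq_modular_sp_surjective (h : ModPRG N A hℓ hA hRedF r sp Pinf Qinf) :
    Function.Surjective sp := by
  intro y
  obtain ⟨x, hx⟩ := surjq_sp_surjective (modPRData N A hRedF r) h.modPR.isPR h.modPR.nice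
    h.modPR.nice_k y
  exact ⟨x, by rw [surjq_sp_eq h, hx]⟩

/-- **(SURJ-q)**: every class of `Pic⁰(F̄_N)` killed by `m`, `ℓ ∤ m`, is the specialization of a
class of `J₀(N)` killed by `m`. -/
theorem surjq_modular (h : ModPRG N A hℓ hA hRedF r sp Pinf Qinf) {m : ℕ} (hm : ¬ ℓ ∣ m)
    (y : JZeroC (kA A) N) (hy : m • y = 0) :
    ∃ x : JZero N, m • x = 0 ∧ sp x = y := by
  have hmu : ((m : ℕ) : Kb) ∉ A.nonunits := by
    rw [Fermat.Agent.S05.natCast_mem_nonunits_iff A hℓ hA]
    exact hm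
  obtain ⟨x, hx, hxy⟩ := surjq_exists_torsion_lift (modPRData N A hRedF r) h.modPR.isPR
    h.modPR.nice h.modPR.nice_k h.modPR.orth hmu y hy
  exact ⟨x, hx, by rw [surjq_sp_eq h, hxy]⟩

/-- the lift of (SURJ-q) is unique (S18) -/
theorem surjq_modular_unique (h : ModPRG N A hℓ hA hRedF r sp Pinf Qinf) {m : ℕ} (hm : ¬ ℓ ∣ m)
    {x x' : JZero N} (hx : m • x = 0) (hx' : m • x' = 0) (hsp : sp x = sp x') : x = x' := by
  have h0 : x - x' = 0 := h.s18 m hm (x - x') (by rw [nsmul_sub, hx, hx', sub_zero])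
    (by rw [map_sub, hsp, sub_self])
  exact sub_eq_zero.mp h0

/-- `sp` is a bijection from the `m`-torsion of `J₀(N)` onto the `m`-torsion of `Pic⁰(F̄_N)` -/
theorem surjq_modular_bijOn (h : ModPRG N A hℓ hA hRedF r sp Pinf Qinf) {m : ℕ} (hm : ¬ ℓ ∣ m) :
    Set.BijOn sp {x : JZero N | m • x = 0} {y : JZeroC (kA A) N | m • y = 0} := by
  refine ⟨fun x hx => ?_, fun x hx x' hx' hsp => surjq_modular_unique h hm hx hx' hsp,
    fun y hy => ?_⟩
  · show m • sp x = 0
    rw [← map_nsmul, (hx : m • x = 0), map_zero]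
  · obtain ⟨x, hx, hxy⟩ := surjq_modular h hm y hy
    exact ⟨x, hx, hxy⟩

end Modular

/-- **(SURJ-q), existence form**: for `ℓ ∤ N`, `5 ≤ ℓ` or `(5 - ℓ) ∣ N`, and a place `A ∣ ℓ`
there is a reduction package of `X₀(N)` whose specialization map is onto and restricts to a
bijection on the `m`-torsion for every `m` prime to `ℓ`. -/
theorem surjq_exists (N : ℕ) [NeZero N] (ℓ : ℕ) (hℓ : ℓ.Prime) (hℓN : ¬ ℓ ∣ N)
    (h5 : 5 ≤ ℓ ∨ (5 - ℓ) ∣ N) (A : ValuationSubring Kb) (hA : A.LiesOverPrime ℓ) :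
    ∃ (r : Place Kb (FF N) → Place (kA A) ↥(modularFunctionFieldFullC (kA A) N))
      (sp : JZero N →+ JZeroC (kA A) N) (Pinf : Place Kb (FF N))
      (Qinf : Place (kA A) ↥(modularFunctionFieldFullC (kA A) N)),
      ModPRG N A hℓ hA (stmtRedF N A ℓ hℓ hℓN hA) r sp Pinf Qinf ∧
      Function.Surjective sp ∧
      ∀ m : ℕ, ¬ ℓ ∣ m →
        Set.BijOn sp {x : JZero N | m • x = 0} {y : JZeroC (kA A) N | m • y = 0} := by
  obtain ⟨r, sp, Pinf, Qinf, h⟩ := s15red_exists_pkg N ℓ hℓ hℓN h5 A hA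
  exact ⟨r, sp, Pinf, Qinf, h, surjq_modular_sp_surjective h,
    fun m hm => surjq_modular_bijOn h hm⟩

end Fermat.Agent.RIB
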