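/-
Row 37, the K-machine at the trivial primes: TOP-LEVEL WIRING of `StmtTR`.   Captain: helper43.

`ProdData P N q` is everything the arithmetic side (K1, K3, K5, K6, K7, K8, INTERP; see
NOTES/RT-TW.md) has to produce for a Frey package `P` and a level `N` all of whose odd primes are
trivial:
* the coefficient ring `O` and the numerical data of the trivial primes `ι`;
* the base Hecke ring `T0 ↪ M_d(O)` with the matrices `Σ⁰_i`, `Φ⁰_i`;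
* `level`  : a Taylor–Wiles datum `RT.TWDatum n` for EVERY `n`;
* `interp` : a prime `𝔓` of `T0` with `λ ∉ 𝔓` and `Σ⁰_i ≡ 1 mod 𝔓` gives `Lowered P N q`.

`stmtTR_of` : `StmtTR` from `StmtProd`, the two algebraic glue statements `RT.StmtG2`,
`RT.StmtOutTW` and the facts on the local rings (`StmtK2Facts`).
-/
import Fermat.Agent.RIB.Plan
import Fermat.Agent.RT.PlanTW

set_option autoImplicit false

open WeierstrassCurve WeierstrassCurve.Affine WeierstrassCurve.Affine.Point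

namespace Fermat.Agent.RIB

open Fermat.Agent.RT Fermat.Agent.RT.K2 IsLocalRing

/-- **The product of the arithmetic side** for `(P, N, q)`. -/
structure ProdData (P : FreyPackage) (N q : ℕ) : Type 1 where
  /-- the coefficient ring (`ℤ_p[ζ_p]`) -/
  O : Type
  [instCommRing : CommRing O]
  [instIsDomain : IsDomain O]
  [instDVR : IsDiscreteValuationRing O]
  [instComplete : IsAdicComplete (maximalIdeal O) O]
  [instFinite : Finite (ResidueField O)]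
  lam : O
  hlam : maximalIdeal O = Ideal.span {lam}
  h2 : IsUnit (2 : O)
  /-- the trivial primes -/
  ι : Type
  /-- the free variables -/
  τ : Type
  [instFintypeι : Fintype ι]
  [instFintypeτ : Fintype τ]
  /-- `qq i` = the `i`-th trivial prime in `O`, `s i ^ 2 = qq i`, `tχ i = (ζ + ζ⁻¹)/2`,
  `δ i = (ζ − ζ⁻¹)/2` -/
  qq : ι → O
  s : ι → O
  tχ : ι → O
  δ : ι → O
  hs : ∀ i, s i ^ 2 = qq i
  hs1 : ∀ i, ∃ r, s i = 1 + lam * r ∨ s i = -1 + lam * r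
  hqq : ∀ i, ∃ r, qq i = 1 + lam * r
  hqq1 : ∀ i, qq i ≠ 1
  htδ : ∀ i, tχ i ^ 2 - δ i ^ 2 = 1
  htχ : ∀ i, ∃ r, tχ i = 1 + lam * r
  hδ : ∀ i, ∃ r, δ i = lam * r
  hδ0 : ∀ i, δ i ≠ 0
  m : ℕ
  d : ℕ
  hm : 3 * Fintype.card ι + Fintype.card τ ≤ m
  hd : 0 < d
  /-- the base Hecke ring -/
  T0 : Type
  [instCommRingT0 : CommRing T0]
  [instAlgebraT0 : Algebra O T0]
  [instFiniteT0 : Module.Finite O T0]
  j0 : T0 →ₐ[O] Matrix (Fin d) (Fin d) O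
  hj0 : Function.Injective j0
  Sig0 : ι → Matrix (Fin 2) (Fin 2) T0
  Phi0 : ι → Matrix (Fin 2) (Fin 2) T0
  Psi0 : ι → Matrix (Fin 2) (Fin 2) T0
  hPsi0 : ∀ i, IsCayleyParam (algebraMap O T0 (s i)) (Phi0 i) (Psi0 i)
  level : ∀ n : ℕ, ∃ (T1 : Type) (_ : CommRing T1) (_ : Algebra O T1)
      (j1 : T1 →ₐ[O] Matrix (Fin d) (Fin d) (RttwS O m ⧸ maximalIdeal (RttwS O m) ^ n))
      (Sig1 Phi1 : ι → Matrix (Fin 2) (Fin 2) T1) (x1 : τ → T1)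
      (Tχ : Type) (_ : CommRing Tχ) (_ : Algebra O Tχ)
      (jχ : Tχ →ₐ[O] Matrix (Fin d) (Fin d) (RttwS O m ⧸ maximalIdeal (RttwS O m) ^ n))
      (Sigχ Phiχ : ι → Matrix (Fin 2) (Fin 2) Tχ) (xχ : τ → Tχ),
      TWDatum qq s tχ lam m d j0 Sig0 Phi0 n j1 Sig1 Phi1 x1 jχ Sigχ Phiχ xχ
  interp : ∀ 𝔓 : Ideal T0, 𝔓.IsPrime → algebraMap O T0 lam ∉ 𝔓 →
    (∀ i, (Sig0 i - 1) 0 0 ∈ 𝔓 ∧ (Sig0 i - 1) 0 1 ∈ 𝔓 ∧ (Sig0 i - 1) 1 0 ∈ 𝔓) → Lowered P N q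

attribute [instance] ProdData.instCommRing ProdData.instIsDomain ProdData.instDVR
  ProdData.instComplete ProdData.instFinite ProdData.instFintypeι ProdData.instFintypeτ
  ProdData.instCommRingT0 ProdData.instAlgebraT0 ProdData.instFiniteT0

/-- **PROD**: the arithmetic side delivers `ProdData` in the situation of `StmtTR`. -/
def StmtProd : Prop :=
  ∀ (P : FreyPackage) (N q : ℕ), P.IsConductorLevel N → ¬ P.p ∣ N → q.Prime → q ≠ 2 →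
    q ∣ N → GaloisRepIsIrreducible (K := AlgebraicClosure ℚ) ℚ P.freyCurve P.p →
    P.ModularRepOfLevel N →
    (∀ r : ℕ, r.Prime → r ≠ 2 → r ∣ N → IsTrivialPrime P r) →
    Nonempty (ProdData P N q)

/-- **K2, the domain theorem** (helper27): `R^χ_∞ = P ⧸ rtk2Ichi` is a domain. -/
def StmtK2Dom : Prop :=
  ∀ (O : Type) [CommRing O] [IsDomain O] [IsDiscreteValuationRing O]
    (lam : O), maximalIdeal O = Ideal.span {lam} → IsUnit (2 : O) →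
    ∀ (ι τ : Type) [Fintype ι] [Fintype τ] (δ : ι → O),
    (∀ i, ∃ r, δ i = lam * r) → (∀ i, δ i ≠ 0) → (rtk2Ichi τ δ).IsPrime

/-- **K2-e** (helper97, landed as `rtk2b_Qur_isPrime`, `rtk2b_cramer_not_mem`): `𝔮_ur` is prime
and does not contain the Cramer elements. -/
def StmtK2Qur : Prop :=
  ∀ (O : Type) [CommRing O] [IsDomain O] [IsDiscreteValuationRing O]
    (lam : O), maximalIdeal O = Ideal.span {lam} → IsUnit (2 : O) →
    ∀ (ι τ : Type) [Fintype ι] [Fintype τ] (q : ι → O), (∀ i, ∃ r, q i = 1 + lam * r) →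
    (rtk2Qur ι τ lam).IsPrime ∧ ∀ i, (rtk2Cramer q i : Rtk2P O ι τ) ∉ rtk2Qur ι τ lam

/-- **TR-wiring.** -/
theorem stmtTR_of (hprod : StmtProd) (hG2 : StmtG2) (hout : StmtOutTW) (hdom : StmtK2Dom)
    (hqur : StmtK2Qur) : StmtTR := by
  intro P N q hcond hpN hq hq2 hqN hirr hmod hall
  obtain ⟨D⟩ := hprod P N q hcond hpN hq hq2 hqN hirr hmod hall
  have hχ : (rtk2Ichi D.τ D.δ).IsPrime :=
    hdom D.O D.lam D.hlam D.h2 D.ι D.τ D.δ D.hδ D.hδ0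
  obtain ⟨hQ, hCr⟩ := hqur D.O D.lam D.hlam D.h2 D.ι D.τ D.qq D.hqq
  have hlev : ∀ n : ℕ, ∃ ρ1 ρχ, TWLevelP (τ := D.τ) D.qq D.δ D.lam D.m D.d
      (fun x => D.j0 (rttwBaseVal D.Sig0 D.Psi0 x)) (Set.range D.j0) n ρ1 ρχ := by
    intro n
    obtain ⟨T1, i1, i2, j1, Sig1, Phi1, x1, Tχ, i3, i4, jχ, Sigχ, Phiχ, xχ, hdat⟩ := D.level n
    exact hG2 D.O D.lam D.hlam D.h2 D.ι D.τ D.qq D.s D.tχ D.δ D.hs D.hs1 D.htδ D.htχ D.hδ
      D.m D.d D.T0 D.j0 D.Sig0 D.Phi0 D.Psi0 D.hPsi0 n T1 j1 Sig1 Phi1 x1 Tχ jχ Sigχ Phiχ xχ hdat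
  obtain ⟨𝔓, h𝔓, hlam𝔓, hB⟩ := hout D.O D.lam D.hlam D.h2 D.ι D.τ D.qq D.δ D.hqq D.hqq1 D.hδ
    D.m D.d D.hm D.hd hχ hQ hCr D.T0 D.j0 D.hj0 (rttwBaseVal D.Sig0 D.Psi0) hlev
  refine D.interp 𝔓 h𝔓 hlam𝔓 fun i => ?_
  obtain ⟨h0, h1, h2⟩ := hB i
  exact ⟨h0, h1, h2⟩

end Fermat.Agent.RIB
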